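import Fermat.Agent.FlatHopf.OfOrder
import Fermat.Agent.FlatLoc.Frozen
import Fermat.Agent.TWGal.Closed
import Fermat.Agent.GalRep.WrapAdic

/-!
# The frozen flatness condition and orders
-/

set_option autoImplicit false
set_option maxHeartbeats 400000

namespace Fermat.Agent.FlatHopf

open TensorProduct Fermat.Agent.FlatLoc Fermat.Agent.DefRing Fermat.Agent.GalRep
  Fermat.Agent.TWGal IsLocalRing

local notation "Qbar" => AlgebraicClosure ℚ

theorem range_algebraMap_loc (p : ℕ) :
    (algebraMap (GaloisRep.ratLocalizedAt p) Qbar).range = Zloc p := by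
  ext z
  constructor
  · rintro ⟨q, rfl⟩
    exact ⟨q.1, q.2, rfl⟩
  · rintro ⟨q, hq, rfl⟩
    exact ⟨⟨q, hq⟩, rfl⟩

instance (p : ℕ) : FaithfulSMul (GaloisRep.ratLocalizedAt p) Qbar := by
  rw [faithfulSMul_iff_algebraMap_injective]
  intro a b hab
  exact Subtype.ext ((algebraMap ℚ Qbar).injective hab)

/-- **(F1)** -/
theorem hopfFlat_of_isFlatMod {p : ℕ} (hp : p.Prime) {V : Type} [AddCommGroup V] [Finite V]
    {ρ : GQ →* AddMonoid.End V} (h : IsFlatMod (Zloc p) ρ) : HopfFlat p ρ :=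
  exists_hopf (isBase_Zloc hp) h (range_algebraMap_loc p)

theorem hopfFlat_iff {p : ℕ} (hp : p.Prime) {V : Type} [AddCommGroup V] [Finite V]
    {ρ : GQ →* AddMonoid.End V} : HopfFlat p ρ ↔ IsFlatMod (Zloc p) ρ :=
  ⟨fun h => h.isFlatMod hp, hopfFlat_of_isFlatMod hp⟩

section

variable {A : Type} [CommRing A] [IsLocalRing A] (ρ : GaloisRepAdic A)

/-- the level action as a homomorphism -/
noncomputable def levelRep (I : Ideal A) :
    GQ →* AddMonoid.End (ρ.V ⧸ (I • (⊤ : Submodule A ρ.V))) where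
  toFun σ := (ρ.levelAction I σ).toAddMonoidHom
  map_one' := by
    ext x : 1
    obtain ⟨v, rfl⟩ := Submodule.Quotient.mk_surjective _ x
    change Submodule.Quotient.mk (ρ.ρ 1 v) = _
    rw [map_one]
    rfl
  map_mul' σ τ := by
    ext x : 1
    obtain ⟨v, rfl⟩ := Submodule.Quotient.mk_surjective _ x
    change Submodule.Quotient.mk (ρ.ρ (σ * τ) v) = Submodule.Quotient.mk (ρ.ρ σ (ρ.ρ τ v))
    rw [map_mul]
    rfl

variable (b : Module.Basis (Fin 2) A ρ.V)

/-- coordinates modulo an ideal -/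
noncomputable def levelCoord (I : Ideal A) :
    (ρ.V ⧸ (I • (⊤ : Submodule A ρ.V))) →+ (Fin 2 → A ⧸ I) :=
  ((I • (⊤ : Submodule A ρ.V)).liftQ
    ((LinearMap.compLeft (Submodule.mkQ I) (Fin 2)).comp b.equivFun.toLinearMap) (by
      rw [Submodule.smul_le]
      intro r hr v _
      rw [LinearMap.mem_ker]
      funext i
      change Submodule.Quotient.mk (b.equivFun (r • v) i) = 0
      rw [map_smul, Pi.smul_apply, Submodule.Quotient.mk_eq_zero, smul_eq_mul]
      exact I.mul_mem_right _ hr)).toAddMonoidHom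

theorem levelCoord_mk (I : Ideal A) (v : ρ.V) :
    levelCoord ρ b I (Submodule.Quotient.mk v) = fun i => Ideal.Quotient.mk I (b.repr v i) := rfl

theorem levelCoord_injective (I : Ideal A) : Function.Injective (levelCoord ρ b I) := by
  rw [injective_iff_map_eq_zero]
  intro x hx
  obtain ⟨v, rfl⟩ := Submodule.Quotient.mk_surjective _ x
  rw [levelCoord_mk] at hx
  rw [Submodule.Quotient.mk_eq_zero, ← b.sum_repr v]
  refine Submodule.sum_mem _ fun i _ => Submodule.smul_mem_smul ?_ trivial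
  exact Ideal.Quotient.eq_zero_iff_mem.mp (congrFun hx i)

theorem levelCoord_surjective (I : Ideal A) : Function.Surjective (levelCoord ρ b I) := by
  intro w
  choose c hc using fun i => Ideal.Quotient.mk_surjective (w i)
  refine ⟨Submodule.Quotient.mk (b.equivFun.symm c), ?_⟩
  rw [levelCoord_mk]
  funext i
  rw [← b.equivFun_apply, LinearEquiv.apply_symm_apply, hc]

theorem levelCoord_equivar (I : Ideal A) (σ : GQ) (x : ρ.V ⧸ (I • (⊤ : Submodule A ρ.V))) :
    levelCoord ρ b I (levelRep ρ I σ x) =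
      vecRep (mapT (Ideal.Quotient.mk I) (repMat ρ b)) σ (levelCoord ρ b I x) := by
  obtain ⟨v, rfl⟩ := Submodule.Quotient.mk_surjective _ x
  have h1 : levelRep ρ I σ (Submodule.Quotient.mk v) = Submodule.Quotient.mk (ρ.ρ σ v) := rfl
  rw [h1, levelCoord_mk, levelCoord_mk, vecRep_apply]
  funext i
  have h2 : b.repr (ρ.ρ σ v) i = ((repMat ρ b σ).mulVec (b.repr v)) i := by
    rw [repMat_apply, LinearMap.toMatrix_mulVec_repr]
  rw [h2, Matrix.mulVec, dotProduct, map_sum]
  exact Finset.sum_congr rfl fun j _ => map_mul _ _ _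

/-- levels in terms of matrices -/
theorem isFlatMod_level_iff {p : ℕ} (hp : p.Prime) (I : Ideal A) [Finite (A ⧸ I)] :
    IsFlatMod (Zloc p) (levelRep ρ I) ↔
      IsFlatMod (Zloc p) (vecRep (mapT (Ideal.Quotient.mk I) (repMat ρ b))) := by
  haveI : Finite (ρ.V ⧸ (I • (⊤ : Submodule A ρ.V))) :=
    Finite.of_injective _ (levelCoord_injective ρ b I)
  constructor
  · intro h
    exact h.quotient (isBase_Zloc hp) (levelCoord ρ b I) (levelCoord_surjective ρ b I)
      (levelCoord_equivar ρ b I)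
  · intro h
    exact h.sub (levelCoord ρ b I) (levelCoord_injective ρ b I) (levelCoord_equivar ρ b I)

/-- **flatness in terms of matrices** -/
theorem isFlatAt_iff {p : ℕ} (hp : p.Prime) :
    ρ.IsFlatAt p ↔ Finite (ResidueField A) ∧ ∀ I : Ideal A, Finite (A ⧸ I) → I ≠ ⊤ →
      IsFlatMod (Zloc p) (vecRep (mapT (Ideal.Quotient.mk I) (repMat ρ b))) := by
  constructor
  · rintro ⟨h1, h2⟩
    refine ⟨h1, fun I hI _ => ?_⟩
    haveI := hI
    rw [← isFlatMod_level_iff ρ b hp I]
    haveI : Finite (ρ.V ⧸ (I • (⊤ : Submodule A ρ.V))) :=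
      Finite.of_injective _ (levelCoord_injective ρ b I)
    exact HopfFlat.isFlatMod hp (ρ := levelRep ρ I) (h2 I hI)
  · rintro ⟨h1, h2⟩
    refine ⟨h1, fun I hI => ?_⟩
    haveI := hI
    haveI : Finite (ρ.V ⧸ (I • (⊤ : Submodule A ρ.V))) :=
      Finite.of_injective _ (levelCoord_injective ρ b I)
    have key : IsFlatMod (Zloc p) (levelRep ρ I) := by
      by_cases hI' : I = ⊤
      · subst hI'
        haveI : Finite (A ⧸ maximalIdeal A) := h1
        have h3 := h2 (maximalIdeal A) h1 (IsLocalRing.maximalIdeal.isMaximal A).ne_top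
        rw [← isFlatMod_level_iff ρ b hp] at h3
        haveI : Finite (ρ.V ⧸ (maximalIdeal A • (⊤ : Submodule A ρ.V))) :=
          Finite.of_injective _ (levelCoord_injective ρ b _)
        haveI : Subsingleton (ρ.V ⧸ ((⊤ : Ideal A) • (⊤ : Submodule A ρ.V))) := by
          rw [Submodule.top_smul]
          infer_instance
        exact h3.quotient (isBase_Zloc hp) (0 : _ →+ (ρ.V ⧸ ((⊤ : Ideal A) • (⊤ : Submodule A ρ.V))))
          (fun x => ⟨0, Subsingleton.elim _ _⟩) (fun σ x => Subsingleton.elim _ _)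
      · exact (isFlatMod_level_iff ρ b hp I).mpr (h2 I hI hI')
    exact hopfFlat_of_isFlatMod hp key

end

end Fermat.Agent.FlatHopf
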