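import Fermat.Agent.FlatHopf.Torsion
import Fermat.Agent.FlatHopf.Glue
import Fermat.Agent.TWGal.BLR
import Fermat.Agent.GalRep.Final

/-!
# S32 from S19
-/

set_option autoImplicit false
set_option maxHeartbeats 400000

noncomputable section

namespace Fermat.Agent.FlatHopf

open AlgebraicCurve Fermat.Agent.Curves Fermat.Agent.AnJac ModularCurve Fermat.Agent.FlatLoc
  Fermat.Agent.GenusX0 Fermat.Agent.TWGal Fermat.Agent.GalRep Fermat.Agent.DefRing IsLocalRing
  Fermat.Agent.HeckeQ CuspForm Polynomial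

local notation "Qbar" => AlgebraicClosure ℚ
local notation "GQ" => Qbar ≃ₐ[ℚ] Qbar

/-- the statement S19 -/
def S19Hyp (N ℓ : ℕ) : Prop := ∀ k : ℕ,
    ∃ (H : Type) (_ : CommRing H) (_ : HopfAlgebra (GaloisRep.ratLocalizedAt ℓ) H),
      Module.Finite (GaloisRep.ratLocalizedAt ℓ) H ∧ Module.Flat (GaloisRep.ratLocalizedAt ℓ) H ∧
      Coalgebra.IsCocomm (GaloisRep.ratLocalizedAt ℓ) H ∧
      ∃ e : WithConv (H →ₐ[GaloisRep.ratLocalizedAt ℓ] AlgebraicClosure ℚ) ≃
          ↥(Submodule.torsionBy ℤ (JZero N) ((ℓ : ℤ) ^ k)),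
        (∀ f g, e (f * g) = e f + e g) ∧
        ∀ (σ : AlgebraicClosure ℚ ≃ₐ[ℚ] AlgebraicClosure ℚ)
          (f g : WithConv (H →ₐ[GaloisRep.ratLocalizedAt ℓ] AlgebraicClosure ℚ)),
          (∀ h : H, g h = σ (f h)) → ((e g : JZero N)) = σ • (e f : JZero N)

/-- the Galois action on the torsion of the Jacobian -/
def torRep (N : ℕ) (n : ℤ) : GQ →* AddMonoid.End (Submodule.torsionBy ℤ (JZero N) n) where
  toFun σ :=
    { toFun := fun x => ⟨σ • (x : JZero N), by
        have h1 := (Submodule.mem_torsionBy_iff _ _).mp x.2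
        rw [Submodule.mem_torsionBy_iff, galois_smul_pic0_def, ← SemilinearAut.smul_zsmul, h1,
          ← galois_smul_pic0_def]
        exact smul_zero (A := JZero N) σ⟩
      map_zero' := Subtype.ext (smul_zero (A := JZero N) σ)
      map_add' := fun x y => Subtype.ext (smul_add σ (x : JZero N) (y : JZero N)) }
  map_one' := by
    ext x : 1
    exact Subtype.ext (one_smul GQ (x : JZero N))
  map_mul' σ τ := by
    ext x : 1
    exact Subtype.ext (mul_smul σ τ (x : JZero N))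

theorem coe_torRep (N : ℕ) (n : ℤ) (σ : GQ) (x : Submodule.torsionBy ℤ (JZero N) n) :
    (torRep N n σ x : JZero N) = σ • (x : JZero N) := rfl

theorem S19Hyp.hopfFlat {N p : ℕ} (h : S19Hyp N p) (k : ℕ) :
    HopfFlat p (torRep N ((p : ℤ) ^ k)) := by
  obtain ⟨H, i1, i2, h1, h2, h3, e, h4, h5⟩ := h k
  refine ⟨H, i1, i2, h1, h2, h3, e, h4, fun σ f g hfg => ?_⟩
  apply Subtype.ext
  rw [coe_torRep]
  exact h5 σ f g hfg

theorem isFlatMod_torRep {N p : ℕ} (hp : p.Prime) (h : S19Hyp N p) (k : ℕ)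
    [Finite (Submodule.torsionBy ℤ (JZero N) ((p : ℤ) ^ k))] :
    IsFlatMod (Zloc p) (torRep N ((p : ℤ) ^ k)) := (h.hopfFlat k).isFlatMod hp

theorem exists_equiv_LK {N p : ℕ} [NeZero N] [Fact p.Prime] (K : ℕ) :
    ∃ e : Submodule.torsionBy ℤ (JZero N) ((p : ℤ) ^ K) ≃+ LK (hdata N p (esHyp N p)) K,
      ∀ (σ : GQ) (x : Submodule.torsionBy ℤ (JZero N) ((p : ℤ) ^ K)),
        e (torRep N ((p : ℤ) ^ K) σ x) =
          modRep (hdata N p (esHyp N p)).ρ (LK (hdata N p (esHyp N p)) K) σ (e x) := by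
  have hp : p.Prime := Fact.out
  have hn : p ^ K ≠ 0 := pow_ne_zero K hp.ne_zero
  have key := exists_equiv_E N (modularFunctionFieldBar N)
    (Fermat.Agent.Curves.laurentBaseChange_eq _ N) (arithmeticGalois (modularFunctionFieldFull N))
    (fun σ x => coe_arithmeticGalois_smul _ σ x) hn
  have hc : ((p ^ K : ℕ) : ℤ) = (p : ℤ) ^ K := by push_cast; rfl
  rw [hc] at key
  obtain ⟨e, he⟩ := key
  refine ⟨e, fun σ x => ?_⟩
  have h1 := he σ x (torRep N ((p : ℤ) ^ K) σ x) rfl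
  refine h1.trans ?_
  rw [modRep_apply, LK_smul]
  congr 1
  exact ((KQ N).rho_spec (bL N) p σ K).symm

/-- **the lattice modulo `p^K` is flat** -/
theorem isFlatMod_LK {N p : ℕ} [NeZero N] [Fact p.Prime] (h : S19Hyp N p) (K : ℕ) :
    IsFlatMod (Zloc p) (modRep (hdata N p (esHyp N p)).ρ (LK (hdata N p (esHyp N p)) K)) := by
  have hp : p.Prime := Fact.out
  obtain ⟨e, he⟩ := exists_equiv_LK (N := N) (p := p) K
  haveI : Finite (Submodule.torsionBy ℤ (JZero N) ((p : ℤ) ^ K)) := Finite.of_equiv _ e.symm.toEquiv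
  exact (closed_flat (isBase_Zloc hp)).of_equiv e he (isFlatMod_torRep hp h K)

/-- BLR: flatness of all finite quotients -/
theorem isFlatMod_of_S19 {N p : ℕ} [NeZero N] [Fact p.Prime] (h : S19Hyp N p) {S : Set ℕ}
    (hS : S.Finite) (hp2 : p ≠ 2)
    {R : Type} [CommRing R] [IsLocalRing R] [IsAdicComplete (maximalIdeal R) R]
    (hp : (p : R) ∈ maximalIdeal R) (π : (hdata N p (esHyp N p)).TT S →+* R)
    {T : GQ →* Matrix (Fin 2) (Fin 2) R} (hT : MatCont T) (hfrob : HData.FrobCond π T)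
    (hspan : Submodule.span R (Set.range T) = ⊤)
    {M : Type} [CommRing M] [IsLocalRing M] [Finite M] (ψ : R →+* M)
    (hpM : IsNilpotent (p : M)) : IsFlatMod (Zloc p) (vecRep (mapT ψ T)) :=
  blr (closed_flat (isBase_Zloc (Fact.out : p.Prime))) (isFlatMod_LK h) hS (NeZero.ne N) hp2 hp π hT
    hfrob hspan ψ hpM

section Wrap

variable {p : ℕ} {N : ℕ} [NeZero N] {S : Finset ℕ}
  {𝒪 : Type} [CommRing 𝒪] [IsDomain 𝒪] [IsDiscreteValuationRing 𝒪]
  [IsAdicComplete (IsLocalRing.maximalIdeal 𝒪) 𝒪]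
  {θ : CuspForm.heckeAlgebra N 2 (↑S : Set ℕ) →+* IsLocalRing.ResidueField 𝒪}
  {T : Type} [CommRing T] [IsLocalRing T] [IsNoetherianRing T]
  [IsAdicComplete (IsLocalRing.maximalIdeal T) T] [Algebra 𝒪 T] [IsLocalHom (algebraMap 𝒪 T)]
  [Module.Finite 𝒪 T] [Module.Free 𝒪 T]

theorem repMat_frobCond [Fact p.Prime] (D : HData N p) (hD : D.Link)
    (H : CuspForm.HeckeGaloisRepDatum N (↑S : Set ℕ) 𝒪 θ T)
    (b : Module.Basis (Fin 2) T H.ρ.V) :
    HData.FrobCond (H.π.comp (HData.Phi (↑S : Set ℕ) hD)) (repMat H.ρ b) := by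
  intro ℓ hℓ hℓN hℓS A hA τ hτ
  have hℓN' : ¬ ℓ ∣ N := fun h => hℓN (h.mul_right p)
  have h1 := H.charpoly_frob ℓ hℓ hℓN' hℓS A hA τ hτ
  have h2 : (repMat H.ρ b τ).charpoly =
      X ^ 2 - C (H.π (heckeAlgebra.T hℓ hℓN' hℓS)) * X + C ((ℓ : T)) := by
    rw [repMat_apply, LinearMap.charpoly_toMatrix, h1]
  rw [Matrix.charpoly_fin_two] at h2
  rw [RingHom.comp_apply, HData.Phi_T _ hD hℓ hℓN hℓS]
  constructor
  · have h3 := congrArg (fun P => P.coeff 1) h2
    simp only [coeff_add, coeff_sub, coeff_X_pow, coeff_C_mul, coeff_X_one, mul_one,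
      coeff_C_succ, add_zero, if_neg (by norm_num : ¬ (1 : ℕ) = 2), zero_sub, neg_inj] at h3
    exact h3
  · have h3 := congrArg (fun P => P.coeff 0) h2
    simp only [coeff_add, coeff_sub, coeff_X_pow, coeff_C_mul, coeff_X_zero, mul_zero,
      coeff_C_zero, sub_zero, zero_add] at h3
    simpa using h3

/-- **S32** from S19 -/
theorem s32_of_S19 [Finite (IsLocalRing.ResidueField 𝒪)] (hp : p.Prime) (hp2 : p ≠ 2)
    (hp𝒪 : (p : 𝒪) ∈ IsLocalRing.maximalIdeal 𝒪) (h19 : S19Hyp N p)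
    (H : CuspForm.HeckeGaloisRepDatum N (↑S : Set ℕ) 𝒪 θ T) : H.ρ.IsFlatAt p := by
  haveI : Fact p.Prime := ⟨hp⟩
  let b : Module.Basis (Fin 2) T H.ρ.V := Module.finBasisOfFinrankEq T H.ρ.V H.ρ.finrank_eq
  have hpT : (p : T) ∈ maximalIdeal T := by
    have h1 : algebraMap 𝒪 T (p : 𝒪) ∈ maximalIdeal T := by
      have : (p : 𝒪) ∈ nonunits 𝒪 := hp𝒪
      exact fun hu => this ((isUnit_map_iff (algebraMap 𝒪 T) _).mp hu)
    rwa [map_natCast] at h1
  rw [isFlatAt_iff H.ρ b hp]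
  constructor
  · -- the residue field is finite
    haveI : Module.Finite (ResidueField 𝒪) (ResidueField T) := by
      haveI : Module.Finite 𝒪 (ResidueField T) :=
        Module.Finite.of_surjective ((IsScalarTower.toAlgHom 𝒪 T (ResidueField T)).toLinearMap)
          residue_surjective
      exact Module.Finite.of_restrictScalars_finite 𝒪 (ResidueField 𝒪) (ResidueField T)
    exact Module.finite_of_finite (ResidueField 𝒪)
  · intro I hI hI'
    haveI := hI
    haveI : Nontrivial (T ⧸ I) := Ideal.Quotient.nontrivial_iff.mpr hI'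
    haveI : IsLocalRing (T ⧸ I) :=
      IsLocalRing.of_surjective' (Ideal.Quotient.mk I) Ideal.Quotient.mk_surjective
    have hpM : IsNilpotent (p : T ⧸ I) := by
      haveI : IsArtinianRing (T ⧸ I) := inferInstance
      have h1 : (p : T ⧸ I) ∈ maximalIdeal (T ⧸ I) := by
        have h2 : ¬ IsUnit (p : T ⧸ I) := by
          intro hu
          rw [← map_natCast (Ideal.Quotient.mk I)] at hu
          haveI := IsLocalRing.surjective_units_map_of_local_ringHom (Ideal.Quotient.mk I)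
            Ideal.Quotient.mk_surjective
            (IsLocalHom.of_surjective _ Ideal.Quotient.mk_surjective)
          have := IsLocalHom.of_surjective (Ideal.Quotient.mk I) Ideal.Quotient.mk_surjective
          exact hpT ((isUnit_map_iff (Ideal.Quotient.mk I) _).mp hu)
        exact h2
      obtain ⟨n, hn⟩ := IsArtinianRing.isNilpotent_jacobson_bot (R := T ⧸ I)
      refine ⟨n, ?_⟩
      rw [IsLocalRing.jacobson_eq_maximalIdeal ⊥ bot_ne_top] at hn
      have h3 := Ideal.pow_mem_pow h1 n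
      rw [hn] at h3
      exact h3
    exact isFlatMod_of_S19 h19 S.finite_toSet hp2 hpT
      (H.π.comp (HData.Phi (↑S : Set ℕ) (hdata_link (esHyp N p))))
      (repMat_matCont H.ρ b) (repMat_frobCond _ _ H b) (repMat_span H.ρ b H.residual_absIrr) _ hpM

end Wrap

end Fermat.Agent.FlatHopf
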