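import Mathlib

/-!
# Hopf algebras from function orders
-/

set_option autoImplicit false
set_option maxHeartbeats 400000

namespace Fermat.Agent.FlatHopf

open TensorProduct

variable {Λ K H V : Type*} [CommRing Λ] [Field K] [Algebra Λ K] [FaithfulSMul Λ K] [CommRing H]
  [Algebra Λ H] [AddCommGroup V]

/-- evaluation at two points -/
noncomputable def ev2 (ev : V → H →ₐ[Λ] K) (u v : V) : H ⊗[Λ] H →ₐ[Λ] K :=
  Algebra.TensorProduct.lift (ev u) (ev v) fun _ _ => Commute.all _ _

/-- evaluation at three points -/
noncomputable def ev3 (ev : V → H →ₐ[Λ] K) (u v w : V) : H ⊗[Λ] (H ⊗[Λ] H) →ₐ[Λ] K :=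
  Algebra.TensorProduct.lift (ev u) (ev2 ev v w) fun _ _ => Commute.all _ _

theorem ev2_tmul (ev : V → H →ₐ[Λ] K) (u v : V) (a b : H) :
    ev2 ev u v (a ⊗ₜ b) = ev u a * ev v b := by
  rw [ev2, Algebra.TensorProduct.lift_tmul]

theorem ev3_tmul (ev : V → H →ₐ[Λ] K) (u v w : V) (a : H) (b : H ⊗[Λ] H) :
    ev3 ev u v w (a ⊗ₜ b) = ev u a * ev2 ev v w b := by
  rw [ev3, Algebra.TensorProduct.lift_tmul]

/-- a function order -/
structure Good (ev : V → H →ₐ[Λ] K) : Prop where
  basis : ∃ (n : ℕ) (b : Module.Basis (Fin n) Λ H), LinearIndependent K (fun i v => ev v (b i))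
  comul : ∀ f, ∃ t : H ⊗[Λ] H, ∀ u v, ev2 ev u v t = ev (u + v) f
  counit : ∀ f, ∃ c : Λ, algebraMap Λ K c = ev 0 f
  neg : ∀ f, ∃ f', ∀ v, ev v f' = ev (-v) f
  span : Submodule.span K (Set.range fun (h : H) (v : V) => ev v h) = ⊤

variable {ev : V → H →ₐ[Λ] K}

/-- injectivity on tensor products -/
theorem Good.inj_tensor (h : Good ev) {N Y : Type*} [AddCommGroup N] [Module Λ N]
    (j : N →ₗ[Λ] (Y → K)) (hj : Function.Injective j) {t : H ⊗[Λ] N}
    (E : V → Y → H ⊗[Λ] N →ₗ[Λ] K) (hE : ∀ v y a n, E v y (a ⊗ₜ n) = ev v a * j n y)
    (ht : ∀ v y, E v y t = 0) : t = 0 := by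
  obtain ⟨n, b, hb⟩ := h.basis
  obtain ⟨c, rfl⟩ := TensorProduct.eq_repr_basis_left b t
  have h1 : ∀ y, ∀ i, j (c i) y = 0 := by
    intro y
    rw [Fintype.linearIndependent_iff] at hb
    apply hb
    funext v
    have := ht v y
    rw [Finsupp.sum_fintype _ _ (fun i => by simp), map_sum] at this
    rw [Finset.sum_apply]
    simp only [hE] at this
    simp only [Pi.smul_apply, smul_eq_mul, Pi.zero_apply]
    rw [← this]
    exact Finset.sum_congr rfl fun i _ => mul_comm _ _
  have h2 : c = 0 := by
    ext i
    apply hj
    rw [Finsupp.zero_apply, map_zero]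
    funext y
    exact h1 y i
  rw [h2, Finsupp.sum_zero_index]

theorem Good.inj (h : Good ev) {a b : H} (hab : ∀ v, ev v a = ev v b) : a = b := by
  obtain ⟨n, B, hB⟩ := h.basis
  have h1 : ∀ i, algebraMap Λ K (B.repr (a - b) i) = 0 := by
    rw [Fintype.linearIndependent_iff] at hB
    apply hB
    funext v
    have h2 : ev v (a - b) = 0 := by rw [map_sub, hab, sub_self]
    rw [← B.sum_repr (a - b), map_sum] at h2
    rw [Finset.sum_apply, Pi.zero_apply, ← h2]
    refine Finset.sum_congr rfl fun i _ => ?_
    rw [Pi.smul_apply, smul_eq_mul, map_smul, Algebra.smul_def]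
  rw [← sub_eq_zero, ← B.sum_repr (a - b)]
  refine Finset.sum_eq_zero fun i _ => ?_
  have h3 : B.repr (a - b) i = 0 := by
    apply FaithfulSMul.algebraMap_injective Λ K
    rw [h1, map_zero]
  rw [h3, zero_smul]

theorem Good.inj2 (h : Good ev) {s t : H ⊗[Λ] H} (hst : ∀ u v, ev2 ev u v s = ev2 ev u v t) :
    s = t := by
  rw [← sub_eq_zero]
  refine h.inj_tensor (LinearMap.pi fun v => (ev v).toLinearMap) (fun a b hab => h.inj fun v => ?_)
    (fun u v => (ev2 ev u v).toLinearMap) (fun v y a n => ev2_tmul ev v y a n) fun v y => ?_
  · exact congrFun hab v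
  · rw [AlgHom.toLinearMap_apply, map_sub, hst, sub_self]

theorem Good.inj3 (h : Good ev) {s t : H ⊗[Λ] (H ⊗[Λ] H)}
    (hst : ∀ u v w, ev3 ev u v w s = ev3 ev u v w t) : s = t := by
  rw [← sub_eq_zero]
  refine h.inj_tensor (Y := V × V) (LinearMap.pi fun v => (ev2 ev v.1 v.2).toLinearMap)
    (fun a b hab => h.inj2 fun u v => ?_)
    (fun u v => (ev3 ev u v.1 v.2).toLinearMap) (fun v y a n => ev3_tmul ev v y.1 y.2 a n)
    fun v y => ?_
  · exact congrFun hab (u, v)
  · rw [AlgHom.toLinearMap_apply, map_sub, hst, sub_self]

/-- comultiplication -/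
noncomputable def Good.comulHom (h : Good ev) : H →ₐ[Λ] H ⊗[Λ] H where
  toFun f := (h.comul f).choose
  map_one' := h.inj2 fun u v => by rw [(h.comul 1).choose_spec, map_one, map_one]
  map_zero' := h.inj2 fun u v => by rw [(h.comul 0).choose_spec, map_zero, map_zero]
  map_mul' a b := h.inj2 fun u v => by
    rw [(h.comul (a * b)).choose_spec, map_mul, map_mul, (h.comul a).choose_spec,
      (h.comul b).choose_spec]
  map_add' a b := h.inj2 fun u v => by
    rw [(h.comul (a + b)).choose_spec, map_add, map_add, (h.comul a).choose_spec,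
      (h.comul b).choose_spec]
  commutes' r := h.inj2 fun u v => by
    rw [(h.comul _).choose_spec, AlgHom.commutes, AlgHom.commutes]

theorem Good.ev2_comul (h : Good ev) (f : H) (u v : V) :
    ev2 ev u v (h.comulHom f) = ev (u + v) f := (h.comul f).choose_spec u v

/-- counit -/
noncomputable def Good.counitHom (h : Good ev) : H →ₐ[Λ] Λ where
  toFun f := (h.counit f).choose
  map_one' := FaithfulSMul.algebraMap_injective Λ K (by
    rw [(h.counit 1).choose_spec, map_one, map_one])
  map_zero' := FaithfulSMul.algebraMap_injective Λ K (by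
    rw [(h.counit 0).choose_spec, map_zero, map_zero])
  map_mul' a b := FaithfulSMul.algebraMap_injective Λ K (by
    rw [(h.counit (a * b)).choose_spec, map_mul, map_mul, (h.counit a).choose_spec,
      (h.counit b).choose_spec])
  map_add' a b := FaithfulSMul.algebraMap_injective Λ K (by
    rw [(h.counit (a + b)).choose_spec, map_add, map_add, (h.counit a).choose_spec,
      (h.counit b).choose_spec])
  commutes' r := FaithfulSMul.algebraMap_injective Λ K (by
    rw [(h.counit _).choose_spec, AlgHom.commutes]
    rfl)

theorem Good.algebraMap_counit (h : Good ev) (f : H) :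
    algebraMap Λ K (h.counitHom f) = ev 0 f := (h.counit f).choose_spec

/-- antipode -/
noncomputable def Good.antipodeHom (h : Good ev) : H →ₐ[Λ] H where
  toFun f := (h.neg f).choose
  map_one' := h.inj fun v => by rw [(h.neg 1).choose_spec, map_one, map_one]
  map_zero' := h.inj fun v => by rw [(h.neg 0).choose_spec, map_zero, map_zero]
  map_mul' a b := h.inj fun v => by
    rw [(h.neg (a * b)).choose_spec, map_mul, map_mul, (h.neg a).choose_spec,
      (h.neg b).choose_spec]
  map_add' a b := h.inj fun v => by
    rw [(h.neg (a + b)).choose_spec, map_add, map_add, (h.neg a).choose_spec,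
      (h.neg b).choose_spec]
  commutes' r := h.inj fun v => by
    rw [(h.neg _).choose_spec, AlgHom.commutes, AlgHom.commutes]

theorem Good.ev_antipode (h : Good ev) (f : H) (v : V) :
    ev v (h.antipodeHom f) = ev (-v) f := (h.neg f).choose_spec v

/-- the bialgebra -/
noncomputable abbrev Good.bialgebra (h : Good ev) : Bialgebra Λ H :=
  Bialgebra.ofAlgHom h.comulHom h.counitHom
    (by
      ext f
      refine h.inj3 fun u v w => ?_
      have key : ∀ t : H ⊗[Λ] H, ev3 ev u v w ((Algebra.TensorProduct.assoc Λ Λ Λ H H H)
          (Algebra.TensorProduct.map h.comulHom (.id Λ H) t)) = ev2 ev (u + v) w t := by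
        intro t
        induction t using TensorProduct.induction_on with
        | zero => simp only [map_zero]
        | add x y hx hy => rw [map_add, map_add, map_add, map_add, hx, hy]
        | tmul x y =>
          rw [Algebra.TensorProduct.map_tmul, ev2_tmul, ← h.ev2_comul]
          generalize h.comulHom x = s
          induction s using TensorProduct.induction_on with
          | zero => simp only [TensorProduct.zero_tmul, map_zero, zero_mul]
          | add x y hx hy => rw [TensorProduct.add_tmul, map_add, map_add, hx, hy, map_add, add_mul]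
          | tmul a b =>
            rw [Algebra.TensorProduct.assoc_tmul, ev3_tmul, ev2_tmul, ev2_tmul, mul_assoc]
            rfl
      have key2 : ∀ t : H ⊗[Λ] H, ev3 ev u v w
          (Algebra.TensorProduct.map (.id Λ H) h.comulHom t) = ev2 ev u (v + w) t := by
        intro t
        induction t using TensorProduct.induction_on with
        | zero => simp only [map_zero]
        | add x y hx hy => rw [map_add, map_add, map_add, hx, hy]
        | tmul x y =>
          rw [Algebra.TensorProduct.map_tmul, ev2_tmul, ev3_tmul, h.ev2_comul]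
          rfl
      have e1 := key (h.comulHom f)
      have e2 := key2 (h.comulHom f)
      rw [h.ev2_comul] at e1 e2
      rw [← add_assoc] at e2
      exact e1.trans e2.symm)
    (by
      ext f
      rw [AlgHom.comp_apply]
      apply (Algebra.TensorProduct.lid Λ H).injective
      change _ = (Algebra.TensorProduct.lid Λ H) ((Algebra.TensorProduct.lid Λ H).symm f)
      rw [AlgEquiv.apply_symm_apply]
      refine h.inj fun v => ?_
      have key : ∀ t : H ⊗[Λ] H, ev v ((Algebra.TensorProduct.lid Λ H)
          (Algebra.TensorProduct.map h.counitHom (.id Λ H) t)) = ev2 ev 0 v t := by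
        intro t
        induction t using TensorProduct.induction_on with
        | zero => simp only [map_zero]
        | add x y hx hy => rw [map_add, map_add, map_add, map_add, hx, hy]
        | tmul x y =>
          rw [Algebra.TensorProduct.map_tmul, ev2_tmul, Algebra.TensorProduct.lid_tmul,
            map_smul, Algebra.smul_def, h.algebraMap_counit]
          rfl
      rw [key, h.ev2_comul, zero_add])
    (by
      ext f
      rw [AlgHom.comp_apply]
      apply (Algebra.TensorProduct.rid Λ Λ H).injective
      change _ = (Algebra.TensorProduct.rid Λ Λ H) ((Algebra.TensorProduct.rid Λ Λ H).symm f)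
      rw [AlgEquiv.apply_symm_apply]
      refine h.inj fun v => ?_
      have key : ∀ t : H ⊗[Λ] H, ev v ((Algebra.TensorProduct.rid Λ Λ H)
          (Algebra.TensorProduct.map (.id Λ H) h.counitHom t)) = ev2 ev v 0 t := by
        intro t
        induction t using TensorProduct.induction_on with
        | zero => simp only [map_zero]
        | add x y hx hy => rw [map_add, map_add, map_add, map_add, hx, hy]
        | tmul x y =>
          rw [Algebra.TensorProduct.map_tmul, ev2_tmul, Algebra.TensorProduct.rid_tmul,
            map_smul, Algebra.smul_def, h.algebraMap_counit, mul_comm]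
          rfl
      rw [key, h.ev2_comul, add_zero])

/-- the Hopf algebra -/
noncomputable abbrev Good.hopf (h : Good ev) : HopfAlgebra Λ H :=
  letI := h.bialgebra
  HopfAlgebra.ofAlgHom h.antipodeHom
    (by
      ext f
      refine h.inj fun v => ?_
      have key : ∀ t : H ⊗[Λ] H, ev v ((Algebra.TensorProduct.lift h.antipodeHom (.id Λ H)
          fun _ => Commute.all _) t) = ev2 ev (-v) v t := by
        intro t
        induction t using TensorProduct.induction_on with
        | zero => simp only [map_zero]
        | add x y hx hy => rw [map_add, map_add, map_add, hx, hy]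
        | tmul x y =>
          rw [Algebra.TensorProduct.lift_tmul, ev2_tmul, map_mul, h.ev_antipode]
          rfl
      have e1 := key (h.comulHom f)
      rw [h.ev2_comul, neg_add_cancel] at e1
      refine e1.trans ?_
      have e2 : ev v ((Algebra.ofId Λ H) (h.counitHom f)) = ev 0 f := by
        rw [Algebra.ofId_apply, AlgHom.commutes, h.algebraMap_counit]
      exact e2.symm)
    (by
      ext f
      refine h.inj fun v => ?_
      have key : ∀ t : H ⊗[Λ] H, ev v ((Algebra.TensorProduct.lift (.id Λ H) h.antipodeHom
          fun _ _ => Commute.all _ _) t) = ev2 ev v (-v) t := by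
        intro t
        induction t using TensorProduct.induction_on with
        | zero => simp only [map_zero]
        | add x y hx hy => rw [map_add, map_add, map_add, hx, hy]
        | tmul x y =>
          rw [Algebra.TensorProduct.lift_tmul, ev2_tmul, map_mul, h.ev_antipode]
          rfl
      have e1 := key (h.comulHom f)
      rw [h.ev2_comul, add_neg_cancel] at e1
      refine e1.trans ?_
      have e2 : ev v ((Algebra.ofId Λ H) (h.counitHom f)) = ev 0 f := by
        rw [Algebra.ofId_apply, AlgHom.commutes, h.algebraMap_counit]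
      exact e2.symm)

theorem Good.isCocomm (h : Good ev) :
    letI := h.hopf
    Coalgebra.IsCocomm Λ H := by
  letI := h.hopf
  refine ⟨?_⟩
  ext f
  refine h.inj2 fun u v => ?_
  have key : ∀ t : H ⊗[Λ] H, ev2 ev u v (TensorProduct.comm Λ H H t) = ev2 ev v u t := by
    intro t
    induction t using TensorProduct.induction_on with
    | zero => simp only [map_zero]
    | add x y hx hy => rw [map_add, map_add, map_add, hx, hy]
    | tmul x y => rw [TensorProduct.comm_tmul, ev2_tmul, ev2_tmul, mul_comm]
  have e1 := key (h.comulHom f)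
  rw [h.ev2_comul, add_comm, ← h.ev2_comul] at e1
  exact e1

theorem Good.ev_injective (h : Good ev) : Function.Injective ev := by
  classical
  intro u v huv
  by_contra hne
  have h1 : (Pi.single u 1 : V → K) ∈ Submodule.span K
      (Set.range fun (h : H) (v : V) => ev v h) := by rw [h.span]; trivial
  have h2 : ∀ F ∈ Submodule.span K (Set.range fun (h : H) (v : V) => ev v h), F u = F v := by
    intro F hF
    induction hF using Submodule.span_induction with
    | mem x hx =>
      obtain ⟨a, rfl⟩ := hx
      change ev u a = ev v a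
      rw [huv]
    | zero => rfl
    | add x y _ _ hx hy => rw [Pi.add_apply, Pi.add_apply, hx, hy]
    | smul c x _ hx => rw [Pi.smul_apply, Pi.smul_apply, hx]
  have h3 := h2 _ h1
  rw [Pi.single_eq_same, Pi.single_eq_of_ne (Ne.symm hne)] at h3
  exact one_ne_zero h3

/-- all homomorphisms are evaluations -/
theorem Good.ev_surjective [Finite V] (h : Good ev) : Function.Surjective ev := by
  classical
  cases nonempty_fintype V
  intro φ
  obtain ⟨n, b, hb⟩ := h.basis
  have hspan : ⊤ ≤ Submodule.span K (Set.range fun (i : Fin n) (v : V) => ev v (b i)) := by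
    rw [← h.span, Submodule.span_le]
    rintro _ ⟨a, rfl⟩
    have h1 : (fun v => ev v a) = ∑ i, algebraMap Λ K (b.repr a i) • fun v => ev v (b i) := by
      funext v
      conv_lhs => rw [← b.sum_repr a, map_sum]
      rw [Finset.sum_apply]
      refine Finset.sum_congr rfl fun i _ => ?_
      rw [map_smul, Algebra.smul_def, Pi.smul_apply, smul_eq_mul]
    change (fun v => ev v a) ∈ _
    rw [h1]
    exact Submodule.sum_mem _ fun i _ => Submodule.smul_mem _ _ (Submodule.subset_span ⟨i, rfl⟩)
  let B : Module.Basis (Fin n) K (V → K) := Module.Basis.mk hb hspan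
  let Φ : (V → K) →ₗ[K] K := B.constr K (fun i => φ (b i))
  have hΦ : ∀ a : H, Φ (fun v => ev v a) = φ a := by
    intro a
    have h1 : (fun v => ev v a) = ∑ i, algebraMap Λ K (b.repr a i) • B i := by
      funext v
      conv_lhs => rw [← b.sum_repr a, map_sum]
      rw [Finset.sum_apply]
      refine Finset.sum_congr rfl fun i _ => ?_
      rw [map_smul, Algebra.smul_def, Pi.smul_apply, smul_eq_mul, Module.Basis.mk_apply]
    rw [h1, map_sum]
    conv_rhs => rw [← b.sum_repr a, map_sum]
    refine Finset.sum_congr rfl fun i _ => ?_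
    rw [map_smul, map_smul, Module.Basis.constr_basis, smul_eq_mul, Algebra.smul_def]
  have hmul : ∀ (a : H) (F : V → K), Φ (fun v => ev v a * F v) = φ a * Φ F := by
    intro a F
    have hF : F ∈ Submodule.span K (Set.range fun (h : H) (v : V) => ev v h) := by
      rw [h.span]; trivial
    induction hF using Submodule.span_induction with
    | mem x hx =>
      obtain ⟨c, rfl⟩ := hx
      have : (fun v => ev v a * (fun (v : V) => ev v c) v) = fun v => ev v (a * c) := by
        funext v
        rw [map_mul]
      rw [this, hΦ, hΦ, map_mul]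
    | zero =>
      have : (fun v => ev v a * (0 : V → K) v) = 0 := by
        funext v
        simp
      rw [this, map_zero, mul_zero]
    | add x y _ _ hx hy =>
      have : (fun v => ev v a * (x + y) v) = (fun v => ev v a * x v) + fun v => ev v a * y v := by
        funext v
        simp [mul_add]
      rw [this, map_add, hx, hy, map_add, mul_add]
    | smul c x _ hx =>
      have : (fun v => ev v a * (c • x) v) = c • fun v => ev v a * x v := by
        funext v
        simp only [Pi.smul_apply, smul_eq_mul]
        ring
      rw [this, map_smul, hx, map_smul, smul_eq_mul, smul_eq_mul]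
      ring
  have hone : ∑ v : V, Φ (Pi.single v 1) = 1 := by
    rw [← map_sum, Finset.univ_sum_single (fun _ : V => (1 : K))]
    have : (fun _ : V => (1 : K)) = fun v => ev v (1 : H) := by
      funext v
      rw [map_one]
    rw [this, hΦ, map_one]
  have hex : ∃ v : V, Φ (Pi.single v 1) ≠ 0 := by
    by_contra hcon
    push Not at hcon
    rw [Finset.sum_eq_zero fun v _ => hcon v] at hone
    exact zero_ne_one hone
  obtain ⟨v, hv⟩ := hex
  refine ⟨v, ?_⟩
  ext a
  have h1 := hmul a (Pi.single v 1)
  have h2 : (fun w => ev w a * (Pi.single v 1 : V → K) w) = ev v a • Pi.single v (1 : K) := by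
    funext w
    by_cases hw : w = v
    · subst hw
      simp
    · simp [Pi.single_eq_of_ne hw]
  rw [h2, map_smul, smul_eq_mul] at h1
  exact mul_right_cancel₀ hv h1

end Fermat.Agent.FlatHopf
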