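import Fermat.Agent.FlatHopf.Basic
import Fermat.Agent.FlatLoc.Closure

/-!
# Orders give Hopf algebras
-/

set_option autoImplicit false
set_option maxHeartbeats 400000

namespace Fermat.Agent.FlatHopf

open TensorProduct Fermat.Agent.FlatLoc

variable {K : Type} [Field K] {G : Type*} [Group G] [MulSemiringAction G K]
  {V : Type} [AddCommGroup V] [Finite V] {R : Subring K} {ρ : G →* AddMonoid.End V}
  {H : Subalgebra R (V → K)}

theorem const_mem {r : K} (hr : r ∈ R) : (fun _ : V => r) ∈ H :=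
  H.algebraMap_mem (⟨r, hr⟩ : R)

theorem zero_mem_base (hR : IsBase G R) (hH : IsOrder R ρ H) {f : V → K} (hf : f ∈ H) :
    f 0 ∈ R := by
  refine hR.int _ (fun σ => ?_) (hH.isIntegral hf 0)
  rw [← hH.equiv f hf, map_zero]

theorem nsmul_mem (hR : IsBase G R) (hH : IsOrder R ρ H) (k : ℕ) :
    ∀ f ∈ H, (fun v => f (k • v)) ∈ H := by
  induction k with
  | zero =>
    intro f hf
    simp only [zero_smul]
    exact const_mem (zero_mem_base hR hH hf)
  | succ k ih =>
    intro f hf
    obtain ⟨n, g, h, hg, hh, e⟩ := hH.comul' hf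
    have h1 : (fun v => f ((k + 1) • v)) = ∑ i, (fun v => g i (k • v)) * h i := by
      funext v
      rw [add_smul, one_smul, e, Finset.sum_apply]
      rfl
    rw [h1]
    exact Subalgebra.sum_mem _ fun i _ => mul_mem (ih _ (hg i)) (hh i)

theorem neg_mem' (hR : IsBase G R) (hH : IsOrder R ρ H) {f : V → K} (hf : f ∈ H) :
    (fun v => f (-v)) ∈ H := by
  have h1 : ∀ v : V, -v = (Nat.card V - 1) • v := by
    intro v
    have h2 : (Nat.card V - 1 + 1) • v = 0 := by
      rw [Nat.sub_add_cancel Nat.card_pos]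
      exact card_nsmul_eq_zero'
    rw [add_smul, one_smul] at h2
    exact neg_eq_of_add_eq_zero_left h2
  simp only [h1]
  exact nsmul_mem hR hH _ f hf

section

variable (Λ : Type) [CommRing Λ] [Algebra Λ K] [FaithfulSMul Λ K]

/-- change of the name of the base ring -/
def trans (hΛ : (algebraMap Λ K).range = R) (H : Subalgebra R (V → K)) :
    Subalgebra Λ (V → K) where
  carrier := H
  mul_mem' := H.mul_mem
  add_mem' := H.add_mem
  algebraMap_mem' r := by
    have h1 : algebraMap Λ K r ∈ R := by rw [← hΛ]; exact ⟨r, rfl⟩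
    exact const_mem h1

variable {Λ}

/-- evaluations -/
def evs (H' : Subalgebra Λ (V → K)) (v : V) : H' →ₐ[Λ] K :=
  (Pi.evalAlgHom Λ (fun _ : V => K) v).comp H'.val

omit [FaithfulSMul Λ K] [AddCommGroup V] [Finite V] in
theorem evs_apply (H' : Subalgebra Λ (V → K)) (v : V) (f : H') : evs H' v f = f.1 v := rfl

theorem good_of_isOrder (hR : IsBase G R) (hH : IsOrder R ρ H)
    (hΛ : (algebraMap Λ K).range = R) : Good (evs (trans Λ hΛ H)) where
  basis := by
    obtain ⟨n, b, hb, hli, hr⟩ := FlatLoc.exists_basis hR hH.fg hH.equiv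
    let b' : Fin n → trans Λ hΛ H := fun i => ⟨b i, hb i⟩
    have hval : ∀ (c : Fin n → Λ), ((∑ i, c i • b' i : trans Λ hΛ H) : V → K) =
        ∑ i, algebraMap Λ K (c i) • b i := by
      intro c
      rw [AddSubmonoidClass.coe_finsetSum]
      refine Finset.sum_congr rfl fun i _ => ?_
      funext v
      change c i • b i v = algebraMap Λ K (c i) • b i v
      rw [algebraMap_smul]
    have h1 : LinearIndependent Λ b' := by
      rw [Fintype.linearIndependent_iff]
      intro c hc i
      have h2 := congrArg Subtype.val hc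
      rw [hval] at h2
      have h3 := Fintype.linearIndependent_iff.mp hli _ h2 i
      apply FaithfulSMul.algebraMap_injective Λ K
      rw [h3, map_zero]
    have h2 : ⊤ ≤ Submodule.span Λ (Set.range b') := by
      rintro ⟨f, hf⟩ _
      obtain ⟨r, hr⟩ := hr f hf
      have h3 : ∀ i, ∃ c : Λ, algebraMap Λ K c = r i := fun i => by
        have : ((r i : R) : K) ∈ (algebraMap Λ K).range := by rw [hΛ]; exact (r i).2
        exact this
      choose c hc using h3
      have h4 : (⟨f, hf⟩ : trans Λ hΛ H) = ∑ i, c i • b' i := by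
        apply Subtype.ext
        rw [hval]
        funext v
        rw [Finset.sum_apply]
        change f v = _
        rw [hr]
        refine Finset.sum_congr rfl fun i _ => ?_
        rw [hc]
        rfl
      rw [h4]
      exact Submodule.sum_mem _ fun i _ => Submodule.smul_mem _ _ (Submodule.subset_span ⟨i, rfl⟩)
    refine ⟨n, Module.Basis.mk h1 h2, ?_⟩
    have h3 : (fun (i : Fin n) (v : V) => evs (trans Λ hΛ H) v ((Module.Basis.mk h1 h2) i)) = b := by
      funext i v
      rw [Module.Basis.mk_apply]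
      rfl
    rw [h3]
    exact hli
  comul := by
    rintro ⟨f, hf⟩
    obtain ⟨n, g, h, hg, hh, e⟩ := hH.comul' hf
    refine ⟨∑ i, (⟨g i, hg i⟩ : trans Λ hΛ H) ⊗ₜ (⟨h i, hh i⟩ : trans Λ hΛ H), fun u v => ?_⟩
    rw [map_sum]
    simp only [ev2_tmul]
    exact (e u v).symm
  counit := by
    rintro ⟨f, hf⟩
    have h1 := zero_mem_base hR hH hf
    rw [← hΛ] at h1
    exact h1
  neg := by
    rintro ⟨f, hf⟩
    exact ⟨⟨_, neg_mem' hR hH hf⟩, fun v => rfl⟩
  span := by
    rw [← hH.span]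
    congr 1
    ext F
    constructor
    · rintro ⟨⟨f, hf⟩, rfl⟩
      exact hf
    · intro hF
      exact ⟨⟨F, hF⟩, rfl⟩

/-- **Orders give Hopf algebras** -/
theorem exists_hopf (hR : IsBase G R) (h : IsFlatMod R ρ)
    (hΛ : (algebraMap Λ K).range = R) :
    ∃ (H : Type) (_ : CommRing H) (_ : HopfAlgebra Λ H),
      Module.Finite Λ H ∧ Module.Flat Λ H ∧ Coalgebra.IsCocomm Λ H ∧
      ∃ e : WithConv (H →ₐ[Λ] K) ≃ V,
        (∀ f g : WithConv (H →ₐ[Λ] K), e (f * g) = e f + e g) ∧
        ∀ (σ : G) (f g : WithConv (H →ₐ[Λ] K)), (∀ h : H, g h = σ • (f h)) → e g = ρ σ (e f) := by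
  obtain ⟨H₀, hH₀⟩ := h
  have hg := good_of_isOrder hR hH₀ hΛ
  refine ⟨trans Λ hΛ H₀, inferInstance, hg.hopf, ?_, ?_, hg.isCocomm, ?_⟩
  · obtain ⟨n, b, hb⟩ := hg.basis
    exact Module.Finite.of_basis b
  · obtain ⟨n, b, hb⟩ := hg.basis
    haveI := Module.Free.of_basis b
    infer_instance
  letI := hg.hopf
  let e₀ : V ≃ (trans Λ hΛ H₀ →ₐ[Λ] K) :=
    Equiv.ofBijective (evs (trans Λ hΛ H₀)) ⟨hg.ev_injective, hg.ev_surjective⟩
  let e : V ≃ WithConv (trans Λ hΛ H₀ →ₐ[Λ] K) :=
    e₀.trans ⟨WithConv.toConv, WithConv.ofConv, fun _ => rfl, fun _ => rfl⟩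
  have he : ∀ v, (e v).ofConv = evs (trans Λ hΛ H₀) v := fun v => rfl
  refine ⟨e.symm, fun f g => ?_, fun σ f g hfg => ?_⟩
  · obtain ⟨u, rfl⟩ := e.surjective f
    obtain ⟨v, rfl⟩ := e.surjective g
    rw [Equiv.symm_apply_apply, Equiv.symm_apply_apply, Equiv.symm_apply_eq]
    have h1 : (e u * e v).ofConv = (e (u + v)).ofConv := by
      ext f
      rw [he, ← hg.ev2_comul]
      exact AlgHom.convMul_apply (e u) (e v) f
    exact congrArg WithConv.toConv h1
  · obtain ⟨u, rfl⟩ := e.surjective f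
    obtain ⟨v, rfl⟩ := e.surjective g
    rw [Equiv.symm_apply_apply, Equiv.symm_apply_apply]
    apply hg.ev_injective
    ext f
    have h1 := hfg f
    have h2 : f.1 (ρ σ u) = σ • f.1 u := hH₀.equiv f.1 f.2 σ u
    rw [evs_apply, evs_apply, h2]
    exact h1

end

end Fermat.Agent.FlatHopf
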