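import Fermat.Agent.AnJac.HD
import Fermat.Agent.GoodRed.S18Core

/-!
# Torsion of the Jacobian and Kummer systems
-/

set_option autoImplicit false
set_option maxHeartbeats 400000
set_option linter.unusedSectionVars false

noncomputable section

namespace Fermat.Agent.FlatHopf

open AlgebraicCurve Fermat.Agent.Curves Fermat.Agent.GoodRed Fermat.Agent.AnJac ModularCurve
  Fermat.Agent.GenusX0

section Gen

variable {k F G Λ : Type*} [Field k] [IsAlgClosed k] [Field F] [Algebra k F]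
  [IsFunctionField k F] [Group G] [AddCommGroup Λ] (K : KSys F G Λ)
  (act : G →* SemilinearAut k F)

variable (k) in
/-- pairs of a class and a divisor -/
def pairs {n : ℕ} (hn : n ≠ 0) : AddSubgroup (Λ × Divisor.degZero (K := k) (F := F)) where
  carrier := {z | ∃ u, K.cl n z.1 u ∧ ∀ v : Place k F, (n : ℤ) * (z.2 : Divisor k F) v = v.ord u}
  zero_mem' := ⟨1, K.zero_one hn, fun v => by
    rw [Place.ord_one]
    change (n : ℤ) * (0 : Divisor k F) v = 0
    simp⟩
  add_mem' := by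
    rintro ⟨φ, D⟩ ⟨ψ, E⟩ ⟨u, hu, hD⟩ ⟨w, hw, hE⟩
    refine ⟨u * w, K.mul hu hw, fun v => ?_⟩
    rw [Place.ord_mul v (K.ne_zero hu) (K.ne_zero hw), ← hD, ← hE, ← mul_add]
    rfl
  neg_mem' := by
    rintro ⟨φ, D⟩ ⟨u, hu, hD⟩
    refine ⟨u⁻¹, K.inv hn hu, fun v => ?_⟩
    rw [Place.ord_inv, ← hD, ← mul_neg]
    rfl

theorem mk_eq_zero_iff (D : Divisor.degZero (K := k) (F := F)) :
    (Pic0.mk D : Pic0 k F) = 0 ↔ ∃ u : F, u ≠ 0 ∧ ∀ v : Place k F, (D : Divisor k F) v = v.ord u := by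
  rw [Pic0.mk, QuotientAddGroup.eq_zero_iff, AddSubgroup.mem_addSubgroupOf]
  rfl

theorem smul_mk (n : ℕ) (D : Divisor.degZero (K := k) (F := F)) :
    (n : ℤ) • (Pic0.mk D : Pic0 k F) = Pic0.mk (n • D) := by
  rw [natCast_zsmul]
  rfl

/-- the divisor class of a pair -/
def pairsPic {n : ℕ} (hn : n ≠ 0) :
    pairs k K hn →+ Submodule.torsionBy ℤ (Pic0 k F) (n : ℤ) where
  toFun z := ⟨Pic0.mk z.1.2, by
    rw [Submodule.mem_torsionBy_iff, smul_mk, mk_eq_zero_iff]
    obtain ⟨u, hu, hD⟩ := z.2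
    refine ⟨u, K.ne_zero hu, fun v => ?_⟩
    rw [← hD v, AddSubgroupClass.coe_nsmul, Finsupp.smul_apply, nsmul_eq_mul]⟩
  map_zero' := rfl
  map_add' _ _ := rfl

theorem coe_pairsPic {n : ℕ} (hn : n ≠ 0) (z : pairs k K hn) :
    (pairsPic K hn z : Pic0 k F) = Pic0.mk z.1.2 := rfl

variable {r : ℕ} (b : Module.Basis (Fin r) ℤ Λ)

/-- the reduction of a pair -/
def pairsRed {n : ℕ} (hn : n ≠ 0) : pairs k K hn →+ (Fin r → ZMod n) :=
  (KSys.red b n).comp ((AddMonoidHom.fst Λ _).comp (pairs k K hn).subtype)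

theorem pairsRed_apply {n : ℕ} (hn : n ≠ 0) (z : pairs k K hn) :
    pairsRed K b hn z = KSys.red b n z.1.1 := rfl

theorem red_surjective {n : ℕ} : Function.Surjective (KSys.red b n) := by
  intro w
  choose c hc using fun i => ZMod.intCast_surjective (w i)
  refine ⟨∑ i, c i • b i, ?_⟩
  funext i
  rw [KSys.red_apply, b.repr_sum_self, hc]

include act in
theorem pairs_gal {n : ℕ} (hn : n ≠ 0) (hact : ∀ σ u, K.act σ u = act σ • u) (σ : G)
    (z : pairs k K hn) : ∃ z' : pairs k K hn, ∃ u, K.cl n z.1.1 u ∧ K.cl n z'.1.1 (K.act σ u) ∧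
      (z'.1.2 : Divisor k F) = act σ • (z.1.2 : Divisor k F) := by
  obtain ⟨⟨φ, D⟩, u, hu, hD⟩ := z
  obtain ⟨ψ, hψ⟩ := K.gal hn σ hu
  refine ⟨⟨(ψ, ⟨act σ • (D : Divisor k F), SemilinearAut.smul_mem_degZero _ D.2⟩), K.act σ u, hψ,
    fun v => ?_⟩, u, hu, hψ, rfl⟩
  change (n : ℤ) * (act σ • (D : Divisor k F)) v = _
  rw [SemilinearAut.divisor_smul_apply, hact]
  have h1 := hD ((act σ)⁻¹ • v)
  have h2 := SemilinearAut.ord_smul (act σ) ((act σ)⁻¹ • v) u
  rw [smul_inv_smul] at h2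
  rw [h2]
  exact h1

theorem exists_equiv {n : ℕ} (hn : n ≠ 0) (hact : ∀ σ u, K.act σ u = act σ • u)
    (hdvd : ∀ φ u, K.cl n φ u → ∀ v : Place k F, (n : ℤ) ∣ v.ord u)
    (hex : ∀ u, u ≠ 0 → (∀ v : Place k F, (n : ℤ) ∣ v.ord u) → ∃ φ, K.cl n φ u) :
    ∃ e : Submodule.torsionBy ℤ (Pic0 k F) (n : ℤ) ≃+ (Fin r → ZMod n),
      ∀ (σ : G) (x y : Submodule.torsionBy ℤ (Pic0 k F) (n : ℤ)),
        (y : Pic0 k F) = act σ • (x : Pic0 k F) → e y = (K.M b hn σ).mulVec (e x) := by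
  have hn' : (n : ℤ) ≠ 0 := by exact_mod_cast hn
  have hα : Function.Surjective (pairsPic (k := k) K hn) := by
    rintro ⟨x, hx⟩
    obtain ⟨D, rfl⟩ := Pic0.mk_surjective x
    have hx' := hx
    rw [Submodule.mem_torsionBy_iff, smul_mk, mk_eq_zero_iff] at hx'
    obtain ⟨u, hu, hD⟩ := hx'
    have hD' : ∀ v : Place k F, (n : ℤ) * (D : Divisor k F) v = v.ord u := fun v => by
      rw [← hD v, AddSubgroupClass.coe_nsmul, Finsupp.smul_apply, nsmul_eq_mul]
    obtain ⟨φ, hφ⟩ := hex u hu (fun v => ⟨_, (hD' v).symm⟩)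
    exact ⟨⟨(φ, D), u, hφ, hD'⟩, rfl⟩
  have hβ : Function.Surjective (pairsRed (k := k) K b hn) := by
    intro w
    obtain ⟨φ, rfl⟩ := red_surjective b w
    obtain ⟨u, hu⟩ := K.ex hn φ
    choose q hq using fun v => hdvd φ u hu v
    have hfin : (Function.support q).Finite := by
      refine (finite_support (k := k) u).subset fun v hv => ?_
      rw [Function.mem_support] at hv ⊢
      rw [hq v]
      exact mul_ne_zero hn' hv
    let D : Divisor k F := Finsupp.ofSupportFinite q hfin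
    have hD : ∀ v, D v = q v := fun v => rfl
    have hdiv : n • D = divisorOf u := by
      ext v
      rw [Finsupp.smul_apply, hD, divisorOf_apply, hq v, nsmul_eq_mul]
    have hdeg : D ∈ Divisor.degZero (K := k) (F := F) := by
      rw [Divisor.mem_degZero]
      have h1 := congrArg Divisor.degree hdiv
      rw [map_nsmul, degree_divisorOf, nsmul_eq_mul] at h1
      exact (mul_eq_zero.mp h1).resolve_left hn'
    exact ⟨⟨(φ, ⟨D, hdeg⟩), u, hu, fun v => (hq v).symm⟩, rfl⟩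
  have hker : (pairsPic (k := k) K hn).ker = (pairsRed (k := k) K b hn).ker := by
    ext ⟨⟨φ, D⟩, u, hu, hD⟩
    rw [AddMonoidHom.mem_ker, AddMonoidHom.mem_ker, pairsRed_apply, KSys.red_eq_zero,
      ← Submodule.coe_eq_zero, coe_pairsPic, mk_eq_zero_iff]
    have hu0 := K.ne_zero hu
    constructor
    · rintro ⟨g, hg, hgD⟩
      have hgn : g ^ n ≠ 0 := pow_ne_zero n hg
      obtain ⟨c, hc⟩ := exists_const_of_ord_zero (k := k) (x := u * (g ^ n)⁻¹) (fun P => by
        rw [Place.ord_mul P hu0 (inv_ne_zero hgn), Place.ord_inv, ← hD P]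
        have h1 := Place.ord_zpow P g (n : ℤ)
        rw [zpow_natCast] at h1
        rw [h1, ← hgD P]
        ring)
      obtain ⟨d, hd⟩ := IsAlgClosed.exists_pow_nat_eq c (Nat.pos_of_ne_zero hn)
      have h2 : u = (algebraMap k F d * g) ^ n := by
        rw [mul_pow, ← map_pow, hd, ← hc, inv_mul_cancel_right₀ hgn]
      have hne : algebraMap k F d * g ≠ 0 := by
        intro h
        rw [h, zero_pow hn] at h2
        exact hu0 h2
      have h3 := K.pow hn hne 0
      rw [← h2] at h3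
      obtain ⟨χ, hχ⟩ := K.uniq hn hu h3
      rw [smul_zero, sub_zero] at hχ
      exact ⟨χ, hχ⟩
    · rintro ⟨χ, hχ⟩
      change φ = n • χ at hχ
      subst hχ
      obtain ⟨g, hg⟩ := K.root hn hu
      have hg0 : g ≠ 0 := by
        rintro rfl
        rw [zero_pow hn] at hg
        exact hu0 hg.symm
      refine ⟨g, hg0, fun v => ?_⟩
      have h1 := Place.ord_zpow v g (n : ℤ)
      rw [zpow_natCast, hg, ← hD v] at h1
      exact mul_left_cancel₀ hn' h1
  let e : Submodule.torsionBy ℤ (Pic0 k F) (n : ℤ) ≃+ (Fin r → ZMod n) :=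
    (QuotientAddGroup.quotientKerEquivOfSurjective _ hα).symm.trans
      ((QuotientAddGroup.quotientAddEquivOfEq hker).trans
        (QuotientAddGroup.quotientKerEquivOfSurjective _ hβ))
  have he : ∀ z, e (pairsPic K hn z) = pairsRed K b hn z := by
    intro z
    have h1 : (QuotientAddGroup.quotientKerEquivOfSurjective _ hα).symm (pairsPic K hn z) =
        QuotientAddGroup.mk z := by
      rw [AddEquiv.symm_apply_eq]
      rfl
    change (QuotientAddGroup.quotientKerEquivOfSurjective _ hβ)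
      ((QuotientAddGroup.quotientAddEquivOfEq hker)
        ((QuotientAddGroup.quotientKerEquivOfSurjective _ hα).symm (pairsPic K hn z))) = _
    rw [h1]
    rfl
  refine ⟨e, fun σ x y hxy => ?_⟩
  obtain ⟨z, rfl⟩ := hα x
  obtain ⟨z', u, hu, hu', hz'⟩ := pairs_gal K act hn hact σ z
  have hy : y = pairsPic K hn z' := by
    apply Subtype.ext
    rw [hxy, coe_pairsPic, coe_pairsPic, SemilinearAut.pic0_smul_mk]
    exact congrArg Pic0.mk (Subtype.ext hz'.symm)
  rw [hy, he, he, pairsRed_apply, pairsRed_apply]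
  exact (K.M_mulVec b hn σ hu hu').symm

end Gen

section X0

local notation "Qbar" => AlgebraicClosure ℚ
local notation "GQ" => Qbar ≃ₐ[ℚ] Qbar

theorem exists_equiv_E (N : ℕ) [NeZero N] (E : IntermediateField Qbar (LaurentSeries Qbar))
    (hE : E = modularFunctionFieldFullC Qbar N) (act : GQ →* SemilinearAut Qbar E)
    (hact : ∀ σ (x : E), ((act σ • x : E) : LaurentSeries Qbar) =
      coeffMap (σ : Qbar →+* Qbar) (x : LaurentSeries Qbar))
    {n : ℕ} (hn : n ≠ 0) :
    ∃ e : Submodule.torsionBy ℤ (Pic0 Qbar E) (n : ℤ) ≃+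
        (Fin (Module.finrank ℤ (Lat N)) → ZMod n),
      ∀ (σ : GQ) (x y : Submodule.torsionBy ℤ (Pic0 Qbar E) (n : ℤ)),
        (y : Pic0 Qbar E) = act σ • (x : Pic0 Qbar E) →
          e y = ((KQ N).M (bL N) hn σ).mulVec (e x) := by
  subst hE
  haveI := isFunctionField_fullC Qbar N
  exact exists_equiv (KQ N) act (bL N) hn (fun σ u => Subtype.ext (hact σ u).symm)
    (fun φ u h v => ClX.dvd_ord ιQ h v) (fun u hu h => exists_ClX ιQ hn hu h)

end X0

end Fermat.Agent.FlatHopf
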